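import Mathlib

/-!
# S55 / A8 (CAP), leaf J1: Shapiro for smooth coinduction in degree 1 (cochain form)  (helper123)

Abstract group theory.  `loc : D → Γ` a homomorphism, `Ω` a `D`-module, `U'' ≤ U` normal
subgroups of `Γ`.  A family `ψ u : Γ → Ω` (`u ∈ U`) of `loc`-equivariant functions which is a
1-cocycle for right translation and is right-invariant under `U''` (in `u`) is a coboundary
`ψ u γ = x (γ u) - x γ` of a `loc`-equivariant, right-`U''`-invariant function `x`, provided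
Hilbert 90 holds for `loc⁻¹ U / loc⁻¹ U''` acting on `Ω`.
-/

set_option autoImplicit false
set_option linter.unusedSectionVars false
set_option linter.unusedVariables false

noncomputable section

namespace Fermat.Agent.S55.Cap.H123

variable {Γ D Ω : Type} [Group Γ] [Group D] [AddCommGroup Ω] [DistribMulAction D Ω]
  (loc : D →* Γ) (U U'' : Subgroup Γ)

/-- the double coset relation `γ' = loc d * γ * u` -/
def dcSetoid : Setoid Γ where
  r γ γ' := ∃ (d : D) (u : Γ), u ∈ U ∧ γ' = loc d * γ * u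
  iseqv := by
    refine ⟨fun γ => ⟨1, 1, U.one_mem, by rw [map_one, one_mul, mul_one]⟩, ?_, ?_⟩
    · rintro γ γ' ⟨d, u, hu, rfl⟩
      refine ⟨d⁻¹, u⁻¹, U.inv_mem hu, ?_⟩
      rw [map_inv]
      group
    · rintro γ γ' γ'' ⟨d, u, hu, rfl⟩ ⟨d', u', hu', rfl⟩
      refine ⟨d' * d, u * u', U.mul_mem hu hu', ?_⟩
      rw [map_mul]
      group

/-- the chosen representative of the double coset of `γ` -/
def dcRep (γ : Γ) : Γ := @Quotient.out _ (dcSetoid loc U) (@Quotient.mk _ (dcSetoid loc U) γ)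

lemma dcRep_spec (γ : Γ) : ∃ (d : D) (u : Γ), u ∈ U ∧ γ = loc d * dcRep loc U γ * u := by
  have h : @Quotient.mk _ (dcSetoid loc U) (dcRep loc U γ) = @Quotient.mk _ (dcSetoid loc U) γ :=
    @Quotient.out_eq _ (dcSetoid loc U) _
  exact @Quotient.exact _ (dcSetoid loc U) _ _ h

lemma dcRep_eq (γ : Γ) (d : D) (u : Γ) (hu : u ∈ U) :
    dcRep loc U (loc d * γ * u) = dcRep loc U γ := by
  unfold dcRep
  congr 1
  apply @Quotient.sound _ (dcSetoid loc U)
  refine ⟨d⁻¹, u⁻¹, U.inv_mem hu, ?_⟩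
  rw [map_inv]
  group

variable [hUn : U.Normal] [hUn'' : U''.Normal]

/-- **Shapiro for smooth coinduction in degree 1** (cochain form). -/
theorem coind_shapiro₁ (hle : U'' ≤ U) (ψ : Γ → Γ → Ω)
    (ha : ∀ u ∈ U, ∀ (d : D) (γ : Γ), ψ u (loc d * γ) = d • ψ u γ)
    (hb : ∀ u ∈ U, ∀ u' ∈ U, ∀ γ : Γ, ψ (u * u') γ = ψ u γ + ψ u' (γ * u))
    (hc : ∀ u ∈ U, ∀ w ∈ U'', ∀ γ : Γ, ψ (u * w) γ = ψ u γ)
    (H90 : ∀ θ : D → Ω,
      (∀ δ ∈ U.comap loc, ∀ δ' ∈ U.comap loc, θ (δ * δ') = θ δ + δ • θ δ') →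
      (∀ δ ∈ U.comap loc, ∀ w ∈ U''.comap loc, θ (δ * w) = θ δ) →
      ∃ c : Ω, ∀ δ ∈ U.comap loc, θ δ = δ • c - c) :
    ∃ x : Γ → Ω, (∀ (d : D) (γ : Γ), x (loc d * γ) = d • x γ) ∧
      (∀ w ∈ U'', ∀ γ : Γ, x (γ * w) = x γ) ∧
      (∀ u ∈ U, ∀ γ : Γ, ψ u γ = x (γ * u) - x γ) := by
  classical
  -- conjugates
  have hconj : ∀ (g : Γ) (δ : D), δ ∈ U.comap loc → g⁻¹ * loc δ * g ∈ U := by
    intro g δ hδ
    have := hUn.conj_mem (loc δ) hδ g⁻¹
    rwa [inv_inv] at this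
  have hconj'' : ∀ (g : Γ) (δ : D), δ ∈ U''.comap loc → g⁻¹ * loc δ * g ∈ U'' := by
    intro g δ hδ
    have := hUn''.conj_mem (loc δ) hδ g⁻¹
    rwa [inv_inv] at this
  -- `ψ 1 = 0`
  have hψ1 : ∀ γ : Γ, ψ 1 γ = 0 := by
    intro γ
    have h := hb 1 U.one_mem 1 U.one_mem γ
    rw [mul_one, mul_one] at h
    have h' : ψ 1 γ + 0 = ψ 1 γ + ψ 1 γ := by rw [add_zero]; exact h
    exact (add_left_cancel h').symm
  -- Hilbert 90 at every `g`
  have hθ : ∀ g : Γ, ∃ c : Ω, ∀ δ ∈ U.comap loc, ψ (g⁻¹ * loc δ * g) g = δ • c - c := by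
    intro g
    refine H90 (fun δ => ψ (g⁻¹ * loc δ * g) g) ?_ ?_
    · intro δ hδ δ' hδ'
      show ψ (g⁻¹ * loc (δ * δ') * g) g = ψ (g⁻¹ * loc δ * g) g + δ • ψ (g⁻¹ * loc δ' * g) g
      have h1 : g⁻¹ * loc (δ * δ') * g = (g⁻¹ * loc δ * g) * (g⁻¹ * loc δ' * g) := by
        rw [map_mul]
        group
      have h2 : g * (g⁻¹ * loc δ * g) = loc δ * g := by group
      rw [h1, hb _ (hconj g δ hδ) _ (hconj g δ' hδ') g, h2, ha _ (hconj g δ' hδ')]
    · intro δ hδ w hw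
      show ψ (g⁻¹ * loc (δ * w) * g) g = ψ (g⁻¹ * loc δ * g) g
      have h1 : g⁻¹ * loc (δ * w) * g = (g⁻¹ * loc δ * g) * (g⁻¹ * loc w * g) := by
        rw [map_mul]
        group
      rw [h1, hc _ (hconj g δ hδ) _ (hconj'' g w hw) g]
  choose c hcg using hθ
  -- the consistency lemma
  have hcons : ∀ (g : Γ) (d d' : D) (u u' : Γ), u ∈ U → u' ∈ U →
      loc d * g * u = loc d' * g * u' → d • (c g + ψ u g) = d' • (c g + ψ u' g) := by
    intro g d d' u u' hu hu' heq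
    have hv : g⁻¹ * loc (d'⁻¹ * d) * g = u' * u⁻¹ := by
      have h1 : g⁻¹ * loc (d'⁻¹ * d) * g = g⁻¹ * (loc d')⁻¹ * (loc d * g * u) * u⁻¹ := by
        rw [map_mul, map_inv]
        group
      rw [h1, heq]
      group
    have hvU : u' * u⁻¹ ∈ U := U.mul_mem hu' (U.inv_mem hu)
    have hδ : d'⁻¹ * d ∈ U.comap loc := by
      show loc (d'⁻¹ * d) ∈ U
      have h1 : loc (d'⁻¹ * d) = g * (u' * u⁻¹) * g⁻¹ := by
        rw [← hv]
        group
      rw [h1]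
      exact hUn.conj_mem _ hvU g
    have hu'eq : u' = (u' * u⁻¹) * u := by group
    have h2 : g * (u' * u⁻¹) = loc (d'⁻¹ * d) * g := by
      rw [← hv]
      group
    have h3 : ψ u' g = ((d'⁻¹ * d) • c g - c g) + (d'⁻¹ * d) • ψ u g := by
      conv_lhs => rw [hu'eq]
      rw [hb _ hvU _ hu g, h2, ha _ hu, ← hv, hcg g _ hδ]
    have h4 : c g + ψ u' g = (d'⁻¹ * d) • (c g + ψ u g) := by
      rw [h3, smul_add]
      abel
    rw [h4, ← mul_smul, mul_inv_cancel_left]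
  -- the decomposition of `γ`
  choose dd uu huu hdec using dcRep_spec loc U
  let x : Γ → Ω := fun γ => dd γ • (c (dcRep loc U γ) + ψ (uu γ) (dcRep loc U γ))
  have hx : ∀ (γ : Γ) (d : D) (u : Γ), u ∈ U → γ = loc d * dcRep loc U γ * u →
      x γ = d • (c (dcRep loc U γ) + ψ u (dcRep loc U γ)) := by
    intro γ d u hu hγ
    refine hcons (dcRep loc U γ) (dd γ) d (uu γ) u (huu γ) hu ?_
    rw [← hdec γ, ← hγ]
  have hx1 : ∀ (d : D) (γ : Γ), x (loc d * γ) = d • x γ := by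
    intro d γ
    have hrep : dcRep loc U (loc d * γ) = dcRep loc U γ := by
      have := dcRep_eq loc U γ d 1 U.one_mem
      rwa [mul_one] at this
    have hγ : loc d * γ = loc (d * dd γ) * dcRep loc U (loc d * γ) * uu γ := by
      rw [hrep, map_mul]
      conv_lhs => rw [hdec γ]
      group
    rw [hx (loc d * γ) (d * dd γ) (uu γ) (huu γ) hγ, hrep, mul_smul]
  have hx3 : ∀ u ∈ U, ∀ γ : Γ, ψ u γ = x (γ * u) - x γ := by
    intro u hu γ
    have hrep : dcRep loc U (γ * u) = dcRep loc U γ := by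
      have := dcRep_eq loc U γ 1 u hu
      rwa [map_one, one_mul] at this
    have hγ : γ * u = loc (dd γ) * dcRep loc U (γ * u) * (uu γ * u) := by
      rw [hrep]
      conv_lhs => rw [hdec γ]
      group
    rw [hx (γ * u) (dd γ) (uu γ * u) (U.mul_mem (huu γ) hu) hγ, hrep,
      hb _ (huu γ) _ hu (dcRep loc U γ)]
    show ψ u γ = dd γ • (c (dcRep loc U γ) + (ψ (uu γ) (dcRep loc U γ)
      + ψ u (dcRep loc U γ * uu γ))) - dd γ • (c (dcRep loc U γ) + ψ (uu γ) (dcRep loc U γ))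
    rw [← smul_sub]
    have h1 : c (dcRep loc U γ) + (ψ (uu γ) (dcRep loc U γ) + ψ u (dcRep loc U γ * uu γ))
        - (c (dcRep loc U γ) + ψ (uu γ) (dcRep loc U γ)) = ψ u (dcRep loc U γ * uu γ) := by
      abel
    rw [h1, ← ha _ hu, ← mul_assoc, ← hdec γ]
  refine ⟨x, hx1, ?_, hx3⟩
  intro w hw γ
  have h1 := hx3 w (hle hw) γ
  have h2 : ψ w γ = 0 := by
    have := hc 1 U.one_mem w hw γ
    rw [one_mul] at this
    rw [this, hψ1]
  rw [h2] at h1
  exact (sub_eq_zero.1 h1.symm)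

end Fermat.Agent.S55.Cap.H123
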