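import Fermat.Agent.S55.Spec.Datum

/-!
# S55 / A8 (CAP), leaf J1: Hilbert 90 in cochain form, from `LocalSpec`   (helper123)

`h90_of_localSpec` : for levels `L ≤ L'`, a function `θ` on the local Galois group at `q` which
is a 1-cocycle on `V_L = Gal(ℚ̄_q/L_q)` with values in `ℚ̄_qˣ` and right-invariant under
`V_{L'}` is a coboundary on `V_L`.
-/

set_option autoImplicit false
set_option linter.unusedSectionVars false
set_option linter.unusedVariables false

noncomputable section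

namespace Fermat.Agent.S55.Cap.H123

open Fermat.Agent.S55.Tow groupCohomology CategoryTheory

/-- a 1-cocycle is a coboundary when `H¹ = 0` -/
lemma exists_cob_of_isZero_H1 {k G : Type} [CommRing k] [Group G] (A : Rep.{0} k G)
    (hz : Limits.IsZero (groupCohomology A 1))
    (f : G → A) (hf : ∀ g h : G, f (g * h) = A.ρ g (f h) + f g) :
    ∃ y : A, ∀ g : G, A.ρ g y - y = f g := by
  have hmem : f ∈ cocycles₁ A := (mem_cocycles₁_iff f).2 hf
  haveI : Subsingleton (groupCohomology A 1) :=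
    (ModuleCat.isZero_iff_subsingleton).1 hz
  have h0 : H1π A ⟨f, hmem⟩ = 0 := Subsingleton.elim _ _
  obtain ⟨y, hy⟩ := (H1π_eq_zero_iff _).1 h0
  refine ⟨y, fun g => ?_⟩
  have := congrFun hy g
  rw [d₀₁_hom_apply] at this
  exact this

/-- **Hilbert 90 (cochain form)** for `L'_q / L_q`, from `LocalSpec`. -/
theorem h90_of_localSpec (p : ℕ) (hL : LocalSpec p) {S : Finset Nat.Primes} (L L' : Level S)
    (h : L ≤ L') (q : Nat.Primes) (θ : GQp q → (unitsQpbar q).V)
    (hcoc : ∀ δ ∈ L.V q, ∀ δ' ∈ L.V q, θ (δ * δ') = θ δ + (unitsQpbar q).ρ δ (θ δ'))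
    (hinv : ∀ δ ∈ L.V q, ∀ w ∈ L'.V q, θ (δ * w) = θ δ) :
    ∃ c : (unitsQpbar q).V, ∀ δ ∈ L.V q, θ δ = (unitsQpbar q).ρ δ c - c := by
  classical
  have hVV : L'.V q ≤ L.V q := Level.V_anti h q
  have hθ1 : θ 1 = 0 := by
    have h1 := hcoc 1 (L.V q).one_mem 1 (L.V q).one_mem
    rw [mul_one, map_one, Module.End.one_apply] at h1
    have h' : θ 1 + 0 = θ 1 + θ 1 := by rw [add_zero]; exact h1
    exact (add_left_cancel h').symm
  have hθw : ∀ w ∈ L'.V q, θ w = 0 := by
    intro w hw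
    have := hinv 1 (L.V q).one_mem w hw
    rw [one_mul] at this
    rw [this, hθ1]
  have hfix : ∀ δ ∈ L.V q, ∀ w ∈ L'.V q, (unitsQpbar q).ρ w (θ δ) = θ δ := by
    intro δ hδ w hw
    have h1 := hcoc w (hVV hw) δ hδ
    rw [hθw w hw, zero_add] at h1
    rw [← h1]
    have h2 : w * δ = δ * (δ⁻¹ * w * δ) := by group
    have h3 : δ⁻¹ * w * δ ∈ L'.V q := by
      have := (Level.normalV L' q).conj_mem w hw δ⁻¹
      rwa [inv_inv] at this
    rw [h2, hinv δ hδ _ h3]
  have hind : ∀ δ ∈ L.V q, ∀ δ' : GQp q,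
      (QuotientGroup.mk δ : L'.Dec q) = QuotientGroup.mk δ' → θ δ = θ δ' := by
    intro δ hδ δ' he
    rw [QuotientGroup.eq] at he
    have h1 : δ' = δ * (δ⁻¹ * δ') := by group
    conv_rhs => rw [h1]
    rw [hinv δ hδ _ he]
  -- the relative group
  let K : Subgroup (L'.Dec q) := (Level.projDec h q).ker
  have hmkK : ∀ δ : GQp q, (QuotientGroup.mk δ : L'.Dec q) ∈ K ↔ δ ∈ L.V q := by
    intro δ
    show Level.projDec h q (QuotientGroup.mk δ) = 1 ↔ _
    rw [Level.projDec_mk, QuotientGroup.eq_one_iff]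
  -- lifts
  let lift : ↥K → GQp q := fun k => Quotient.out (k.1 : L'.Dec q)
  have hlift : ∀ k : ↥K, (QuotientGroup.mk (lift k) : L'.Dec q) = k.1 :=
    fun k => QuotientGroup.out_eq' _
  have hliftV : ∀ k : ↥K, lift k ∈ L.V q := by
    intro k
    rw [← hmkK, hlift]
    exact k.2
  -- the cocycle
  let z : ↥K → (T.resSub (L'.locUnits q) K) := fun k =>
    L'.locMk q (θ (lift k)) (fun w hw => hfix _ (hliftV k) w hw)
  have hzc : ∀ k k' : ↥K,
      z (k * k') = (T.resSub (L'.locUnits q) K).ρ k (z k') + z k := by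
    intro k k'
    apply L'.locCoe_injective q
    have hρ : L'.locCoe q ((T.resSub (L'.locUnits q) K).ρ k (z k'))
        = (unitsQpbar q).ρ (lift k) (θ (lift k')) := by
      show L'.locCoe q ((L'.locUnits q).ρ (k.1) (z k')) = _
      rw [← hlift k]
      rfl
    have hadd : L'.locCoe q ((T.resSub (L'.locUnits q) K).ρ k (z k') + z k)
        = L'.locCoe q ((T.resSub (L'.locUnits q) K).ρ k (z k')) + L'.locCoe q (z k) :=
      map_add (L'.locCoe q) _ _
    rw [hadd, hρ]
    show θ (lift (k * k')) = (unitsQpbar q).ρ (lift k) (θ (lift k')) + θ (lift k)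
    have h1 : (QuotientGroup.mk (lift k * lift k') : L'.Dec q)
        = QuotientGroup.mk (lift (k * k')) := by
      rw [QuotientGroup.mk_mul, hlift, hlift, hlift]
      rfl
    rw [← hind _ ((L.V q).mul_mem (hliftV k) (hliftV k')) _ h1,
      hcoc _ (hliftV k) _ (hliftV k'), add_comm]
  obtain ⟨y, hy⟩ := exists_cob_of_isZero_H1 (T.resSub (L'.locUnits q) K)
    (hL.2.1 S L L' h q) z hzc
  refine ⟨L'.locCoe q y, fun δ hδ => ?_⟩
  have hk : (QuotientGroup.mk δ : L'.Dec q) ∈ K := (hmkK δ).2 hδ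
  have h1 := hy ⟨QuotientGroup.mk δ, hk⟩
  have h2 := congrArg (L'.locCoe q) h1
  have h3 : L'.locCoe q (z ⟨QuotientGroup.mk δ, hk⟩) = θ δ := by
    show θ (lift ⟨QuotientGroup.mk δ, hk⟩) = θ δ
    exact hind _ (hliftV _) _ (hlift _)
  rw [h3] at h2
  rw [← h2]
  rfl

end Fermat.Agent.S55.Cap.H123
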