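import Fermat.Agent.S55.Cap.IndM

/-!
# S55 / A8 (CAP), leaf J1: Shapiro for `Ind_U X` in degree 1 (cochain form)   (helper123)

`G` a group, `U ≤ G` of finite index, `X` a `G`-module, `f : G → Ind_U X` a 1-cocycle.  If the
`U`-cocycle `u ↦ (f u)(1̄)` is the coboundary of `x₀ ∈ X`, then `f` is the coboundary of the
element `F` of `Ind_U X` with `F (ḡ) = g x₀ - (f g)(ḡ)`.
-/

set_option autoImplicit false
set_option linter.unusedSectionVars false

noncomputable section

namespace Fermat.Agent.S55.Cap.H123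

open Fermat.Agent.S55.Cap

variable {G : Type} [Group G] (U : Subgroup G) {X : Type} [AddCommGroup X] [DistribMulAction G X]

/-- the coefficients of `g • F` -/
lemma toF_smul_apply (g : G) (F : IndM U X) (y : G ⧸ U) :
    IndM.toF U (g • F) y = g • IndM.toF U F (g⁻¹ • y) := by
  classical
  induction F using IndM.induction_on with
  | h0 =>
    rw [smul_zero, map_zero]
    show (0 : X) = g • (0 : X)
    rw [smul_zero]
  | hadd F F' hF hF' =>
    rw [smul_add, map_add, map_add]
    show IndM.toF U (g • F) y + IndM.toF U (g • F') y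
      = g • (IndM.toF U F (g⁻¹ • y) + IndM.toF U F' (g⁻¹ • y))
    rw [hF, hF', smul_add]
  | hsingle x a =>
    rw [IndM.smul_single]
    show (Finsupp.single (g • x) (g • a)) y = g • (Finsupp.single x a) (g⁻¹ • y)
    rw [Finsupp.single_apply, Finsupp.single_apply]
    by_cases h : g • x = y
    · have h' : x = g⁻¹ • y := by rw [← h, inv_smul_smul]
      rw [if_pos h, if_pos h']
    · have h' : ¬ x = g⁻¹ • y := fun hx => h (by rw [hx, smul_inv_smul])
      rw [if_neg h, if_neg h', smul_zero]

lemma toF_add_apply (F F' : IndM U X) (y : G ⧸ U) :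
    IndM.toF U (F + F') y = IndM.toF U F y + IndM.toF U F' y := rfl

lemma toF_sub_apply (F F' : IndM U X) (y : G ⧸ U) :
    IndM.toF U (F - F') y = IndM.toF U F y - IndM.toF U F' y := rfl

lemma indM_ext {F F' : IndM U X} (h : ∀ y, IndM.toF U F y = IndM.toF U F' y) : F = F' :=
  Finsupp.ext h

/-- **Shapiro for `Ind` in degree 1** (cochain form). -/
theorem ind_shapiro₁ [Finite (G ⧸ U)] (f : G → IndM U X)
    (hf : ∀ g h, f (g * h) = f g + g • f h) (x₀ : X)
    (hx₀ : ∀ u ∈ U, IndM.toF U (f u) (QuotientGroup.mk 1) = u • x₀ - x₀) :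
    ∃ Q : IndM U X, ∀ g, f g = g • Q - Q := by
  classical
  -- the candidate coefficient, as a function of a representative
  let c : G → X := fun g => g • x₀ - IndM.toF U (f g) (QuotientGroup.mk g)
  have hmk : ∀ (g : G) (u : G), u ∈ U → (QuotientGroup.mk (g * u) : G ⧸ U) = QuotientGroup.mk g := by
    intro g u hu
    rw [QuotientGroup.eq]
    have : (g * u)⁻¹ * g = u⁻¹ := by group
    rw [this]
    exact U.inv_mem hu
  have hsm : ∀ (g h : G), g • (QuotientGroup.mk h : G ⧸ U) = QuotientGroup.mk (g * h) :=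
    fun g h => rfl
  have hc : ∀ (g u : G), u ∈ U → c (g * u) = c g := by
    intro g u hu
    show (g * u) • x₀ - IndM.toF U (f (g * u)) (QuotientGroup.mk (g * u))
      = g • x₀ - IndM.toF U (f g) (QuotientGroup.mk g)
    rw [hmk g u hu, hf g u, toF_add_apply, toF_smul_apply, hsm, inv_mul_cancel, hx₀ u hu,
      smul_sub, mul_smul]
    abel
  -- the coefficient function on the quotient
  let Fn : G ⧸ U → X := fun y => c (Quotient.out y)
  have hFn : ∀ g : G, Fn (QuotientGroup.mk g) = c g := by
    intro g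
    have h1 : (QuotientGroup.mk (Quotient.out (QuotientGroup.mk g : G ⧸ U)) : G ⧸ U)
        = QuotientGroup.mk g := Quotient.out_eq _
    rw [QuotientGroup.eq] at h1
    have h2 : g = Quotient.out (QuotientGroup.mk g : G ⧸ U)
        * ((Quotient.out (QuotientGroup.mk g : G ⧸ U))⁻¹ * g) := by group
    show c (Quotient.out (QuotientGroup.mk g : G ⧸ U)) = c g
    conv_rhs => rw [h2]
    rw [hc _ _ h1]
  refine ⟨IndM.ofF U (Finsupp.equivFunOnFinite.symm Fn), fun h => ?_⟩
  have hQ : ∀ y, IndM.toF U (IndM.ofF U (Finsupp.equivFunOnFinite.symm Fn)) y = Fn y :=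
    fun y => rfl
  apply indM_ext
  intro y
  induction y using QuotientGroup.induction_on with
  | H g =>
    rw [toF_sub_apply, toF_smul_apply, hQ, hQ, hsm, hFn, hFn]
    show IndM.toF U (f h) (QuotientGroup.mk g)
      = h • ((h⁻¹ * g) • x₀ - IndM.toF U (f (h⁻¹ * g)) (QuotientGroup.mk (h⁻¹ * g)))
        - (g • x₀ - IndM.toF U (f g) (QuotientGroup.mk g))
    have h1 : f g = f h + h • f (h⁻¹ * g) := by
      rw [← hf, mul_inv_cancel_left]
    have h2 : IndM.toF U (f g) (QuotientGroup.mk g)
        = IndM.toF U (f h) (QuotientGroup.mk g)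
          + h • IndM.toF U (f (h⁻¹ * g)) (QuotientGroup.mk (h⁻¹ * g)) := by
      conv_lhs => rw [h1]
      rw [toF_add_apply, toF_smul_apply, hsm]
    rw [h2, smul_sub, ← mul_smul, mul_inv_cancel_left]
    abel

end Fermat.Agent.S55.Cap.H123
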