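import Fermat.Agent.S55.Cap.H123.CoindShapiro

/-!
# S55 / A8 (CAP), leaf J2: Shapiro for smooth coinduction in degree 2 (cochain form)  (helper123)

Abstract group theory, explicit formula.  `loc : D → Γ`, `W ⊴ Γ`, `Z` a `Γ`-set on which `W` acts
trivially (`Z = Γ ⧸ U`), `A` a `Γ`-module, `Ω` a `D`-module, `e : A → Ω` equivariant along `loc`.
`c g h z` = the `z`-coefficient of a 2-cocycle `c : Γ² → Ind A`, right-`W`-invariant.
If `e ∘ c ∘ loc = d β` with `β : D → Ind Ω` right-invariant under `loc⁻¹ W`, then the image of `c`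
in `Ind (Coind^{sm} Ω)` is the coboundary of the cochain `b` with
`b(g)_y(γ) = e c_{γy}(γ, g) - t(γ g)_{γy} + t(γ)_{γy}`, where
`t(loc d * g₀ * u)_z = e c_z(loc d, g₀) - β_z(d)` on the double coset of the representative `g₀`.
-/

set_option autoImplicit false
set_option linter.unusedSectionVars false
set_option linter.unusedVariables false

noncomputable section

namespace Fermat.Agent.S55.Cap.H123

variable {Γ D Z A Ω : Type} [Group Γ] [Group D] [MulAction Γ Z] [AddCommGroup A]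
  [DistribMulAction Γ A] [AddCommGroup Ω] [DistribMulAction D Ω]
  (loc : D →* Γ) (W : Subgroup Γ) [hWn : W.Normal] (e : A →+ Ω)

/-- the cocycle identity, solved for `c (g * h) j` -/
lemma coc_solve (c : Γ → Γ → Z → A)
    (hcoc : ∀ (g h j : Γ) (z : Z),
      g • c h j (g⁻¹ • z) - c (g * h) j z + c g (h * j) z - c g h z = 0)
    (g h j : Γ) (z : Z) :
    c (g * h) j z = g • c h j (g⁻¹ • z) + c g (h * j) z - c g h z := by
  have h0 := hcoc g h j z
  have key : c (g * h) j z - (g • c h j (g⁻¹ • z) + c g (h * j) z - c g h z)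
      = -(g • c h j (g⁻¹ • z) - c (g * h) j z + c g (h * j) z - c g h z) := by abel
  exact sub_eq_zero.1 (by rw [key, h0, neg_zero])

/-- the correcting 0-cochain `t` on the double cosets -/
lemma exists_t
    (c : Γ → Γ → Z → A)
    (hcoc : ∀ (g h j : Γ) (z : Z),
      g • c h j (g⁻¹ • z) - c (g * h) j z + c g (h * j) z - c g h z = 0)
    (hinv : ∀ (g h w w' : Γ) (z : Z), w ∈ W → w' ∈ W → c (g * w) (h * w') z = c g h z)
    (he : ∀ (d : D) (a : A), e (loc d • a) = d • e a)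
    (β : D → Z → Ω)
    (hβ1 : ∀ (d d' : D) (z : Z),
      e (c (loc d) (loc d') z) = d • β d' ((loc d)⁻¹ • z) - β (d * d') z + β d z)
    (hβ2 : ∀ (d v : D) (z : Z), v ∈ W.comap loc → β (d * v) z = β d z) :
    ∃ t : Γ → Z → Ω, (∀ (γ w : Γ), w ∈ W → ∀ z, t (γ * w) z = t γ z) ∧
      (∀ (d' : D) (γ : Γ) (z : Z),
        t (loc d' * γ) z = d' • t γ ((loc d')⁻¹ • z) + e (c (loc d') γ z) - β d' z) := by
  classical
  have hcoc' := coc_solve c hcoc
  have hinvL : ∀ (g h w : Γ) (z : Z), w ∈ W → c (g * w) h z = c g h z := by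
    intro g h w z hw
    have := hinv g h w 1 z hw W.one_mem
    rwa [mul_one] at this
  have hinvR : ∀ (g h w : Γ) (z : Z), w ∈ W → c g (h * w) z = c g h z := by
    intro g h w z hw
    have := hinv g h 1 w z W.one_mem hw
    rwa [mul_one] at this
  -- the decomposition of `γ`
  choose dd uu huu hdec using dcRep_spec loc W
  have hcons : ∀ (g : Γ) (d d' : D) (u u' : Γ), u ∈ W → u' ∈ W →
      loc d * g * u = loc d' * g * u' →
      ∀ z, e (c (loc d) g z) - β d z = e (c (loc d') g z) - β d' z := by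
    intro g d d' u u' hu hu' heq z
    have hv : g⁻¹ * loc (d'⁻¹ * d) * g = u' * u⁻¹ := by
      have h1 : g⁻¹ * loc (d'⁻¹ * d) * g = g⁻¹ * (loc d')⁻¹ * (loc d * g * u) * u⁻¹ := by
        rw [map_mul, map_inv]
        group
      rw [h1, heq]
      group
    have hvW : u' * u⁻¹ ∈ W := W.mul_mem hu' (W.inv_mem hu)
    have hδ : d'⁻¹ * d ∈ W.comap loc := by
      show loc (d'⁻¹ * d) ∈ W
      have h1 : loc (d'⁻¹ * d) = g * (u' * u⁻¹) * g⁻¹ := by
        rw [← hv]
        group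
      rw [h1]
      exact hWn.conj_mem _ hvW g
    have hd : d' * (d'⁻¹ * d) = d := by group
    have h1 : β d z = β d' z := by
      have := hβ2 d' (d'⁻¹ * d) z hδ
      rwa [hd] at this
    have h2 : c (loc d) g z = c (loc d') g z := by
      have := hinvL (loc d') g (loc (d'⁻¹ * d)) z hδ
      rwa [← map_mul, hd] at this
    rw [h1, h2]
  have ht : ∀ (γ : Γ) (d : D) (u : Γ), u ∈ W → γ = loc d * dcRep loc W γ * u →
      ∀ z, e (c (loc (dd γ)) (dcRep loc W γ) z) - β (dd γ) z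
        = e (c (loc d) (dcRep loc W γ) z) - β d z := by
    intro γ d u hu hγ z
    refine hcons (dcRep loc W γ) (dd γ) d (uu γ) u (huu γ) hu ?_ z
    rw [← hdec γ, ← hγ]
  refine ⟨fun γ z => e (c (loc (dd γ)) (dcRep loc W γ) z) - β (dd γ) z, ?_, ?_⟩
  · intro γ w hw z
    have hrep : dcRep loc W (γ * w) = dcRep loc W γ := by
      have := dcRep_eq loc W γ 1 w hw
      rwa [map_one, one_mul] at this
    have hγ : γ * w = loc (dd γ) * dcRep loc W (γ * w) * (uu γ * w) := by
      rw [hrep]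
      conv_lhs => rw [hdec γ]
      group
    show e (c (loc (dd (γ * w))) (dcRep loc W (γ * w)) z) - β (dd (γ * w)) z
      = e (c (loc (dd γ)) (dcRep loc W γ) z) - β (dd γ) z
    rw [ht (γ * w) (dd γ) (uu γ * w) (W.mul_mem (huu γ) hw) hγ z, hrep]
  · intro d' γ z
    have hrep : dcRep loc W (loc d' * γ) = dcRep loc W γ := by
      have := dcRep_eq loc W γ d' 1 W.one_mem
      rwa [mul_one] at this
    have hγ : loc d' * γ = loc (d' * dd γ) * dcRep loc W (loc d' * γ) * uu γ := by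
      rw [hrep, map_mul]
      conv_lhs => rw [hdec γ]
      group
    show e (c (loc (dd (loc d' * γ))) (dcRep loc W (loc d' * γ)) z) - β (dd (loc d' * γ)) z
      = d' • (e (c (loc (dd γ)) (dcRep loc W γ) ((loc d')⁻¹ • z))
          - β (dd γ) ((loc d')⁻¹ • z)) + e (c (loc d') γ z) - β d' z
    rw [ht (loc d' * γ) (d' * dd γ) (uu γ) (huu γ) hγ z, hrep]
    have h1 : c (loc d') γ z = c (loc d') (loc (dd γ) * dcRep loc W γ) z := by
      conv_lhs => rw [hdec γ]
      exact hinvR _ _ _ z (huu γ)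
    have h2 := hβ1 d' (dd γ) z
    have h3 : β (d' * dd γ) z
        = d' • β (dd γ) ((loc d')⁻¹ • z) + β d' z - e (c (loc d') (loc (dd γ)) z) := by
      rw [h2]
      abel
    rw [h1, map_mul, hcoc' (loc d') (loc (dd γ)) (dcRep loc W γ) z, h3, map_sub, map_add, he,
      smul_sub]
    abel

/-- **Shapiro for smooth coinduction in degree 2** (cochain form, explicit formula). -/
theorem coind_shapiro₂
    (he : ∀ (d : D) (a : A), e (loc d • a) = d • e a)
    (hWZ : ∀ w ∈ W, ∀ z : Z, w • z = z)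
    (c : Γ → Γ → Z → A)
    (hcoc : ∀ (g h j : Γ) (z : Z),
      g • c h j (g⁻¹ • z) - c (g * h) j z + c g (h * j) z - c g h z = 0)
    (hinv : ∀ (g h w w' : Γ) (z : Z), w ∈ W → w' ∈ W → c (g * w) (h * w') z = c g h z)
    (β : D → Z → Ω)
    (hβ1 : ∀ (d d' : D) (z : Z),
      e (c (loc d) (loc d') z) = d • β d' ((loc d)⁻¹ • z) - β (d * d') z + β d z)
    (hβ2 : ∀ (d v : D) (z : Z), v ∈ W.comap loc → β (d * v) z = β d z) :
    ∃ bb : Γ → Z → Γ → Ω,
      (∀ (g : Γ) (y : Z) (d : D) (γ : Γ), bb g y (loc d * γ) = d • bb g y γ) ∧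
      (∀ (g : Γ) (y : Z) (γ w : Γ), w ∈ W → bb g y (γ * w) = bb g y γ) ∧
      (∀ (g : Γ) (y : Z) (γ w : Γ), w ∈ W → bb (g * w) y γ = bb g y γ) ∧
      (∀ (g h : Γ) (y : Z) (γ : Γ),
        e (γ • c g h y) = bb h (g⁻¹ • y) (γ * g) - bb (g * h) y γ + bb g y γ) := by
  classical
  have hcoc' := coc_solve c hcoc
  have hinvL : ∀ (g h w : Γ) (z : Z), w ∈ W → c (g * w) h z = c g h z := by
    intro g h w z hw
    have := hinv g h w 1 z hw W.one_mem
    rwa [mul_one] at this
  have hinvR : ∀ (g h w : Γ) (z : Z), w ∈ W → c g (h * w) z = c g h z := by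
    intro g h w z hw
    have := hinv g h 1 w z W.one_mem hw
    rwa [mul_one] at this
  obtain ⟨t, ht1, ht2⟩ := exists_t loc W e c hcoc hinv he β hβ1 hβ2
  refine ⟨fun g y γ => e (c γ g (γ • y)) - t (γ * g) (γ • y) + t γ (γ • y), ?_, ?_, ?_, ?_⟩
  · intro g y d γ
    show e (c (loc d * γ) g ((loc d * γ) • y)) - t (loc d * γ * g) ((loc d * γ) • y)
        + t (loc d * γ) ((loc d * γ) • y)
      = d • (e (c γ g (γ • y)) - t (γ * g) (γ • y) + t γ (γ • y))
    rw [mul_smul, mul_assoc (loc d) γ g, ht2 d (γ * g), ht2 d γ, inv_smul_smul,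
      hcoc' (loc d) γ g, inv_smul_smul, map_sub, map_add, he, smul_add, smul_sub]
    abel
  · intro g y γ w hw
    show e (c (γ * w) g ((γ * w) • y)) - t (γ * w * g) ((γ * w) • y) + t (γ * w) ((γ * w) • y)
      = e (c γ g (γ • y)) - t (γ * g) (γ • y) + t γ (γ • y)
    have h1 : γ * w * g = γ * g * (g⁻¹ * w * g) := by group
    have h2 : g⁻¹ * w * g ∈ W := by
      have := hWn.conj_mem w hw g⁻¹
      rwa [inv_inv] at this
    rw [mul_smul γ w y, hWZ w hw y, hinvL γ g w _ hw, h1, ht1 _ _ h2, ht1 _ _ hw]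
  · intro g y γ w hw
    show e (c γ (g * w) (γ • y)) - t (γ * (g * w)) (γ • y) + t γ (γ • y)
      = e (c γ g (γ • y)) - t (γ * g) (γ • y) + t γ (γ • y)
    rw [hinvR γ g w _ hw, ← mul_assoc, ht1 _ _ hw]
  · intro g h y γ
    show e (γ • c g h y)
      = (e (c (γ * g) h ((γ * g) • g⁻¹ • y)) - t (γ * g * h) ((γ * g) • g⁻¹ • y)
          + t (γ * g) ((γ * g) • g⁻¹ • y))
        - (e (c γ (g * h) (γ • y)) - t (γ * (g * h)) (γ • y) + t γ (γ • y))
        + (e (c γ g (γ • y)) - t (γ * g) (γ • y) + t γ (γ • y))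
    rw [mul_smul γ g, smul_inv_smul, hcoc' γ g h (γ • y), inv_smul_smul, mul_assoc γ g h,
      map_sub, map_add]
    abel

end Fermat.Agent.S55.Cap.H123
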