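import Mathlib

/-!
# S55 / A8 (CAP), leaf J2: inflation is injective in degree 2, cochain form  (helper123)

Abstract.  Notation of `J2Core.lean`.  If `e ∘ c ∘ loc = d B` with `B : D → Ind Ω` right-invariant
under a SMALLER subgroup `V' ≤ loc⁻¹ W` and Hilbert 90 holds for `loc⁻¹ W / V'` acting on `Ω`, then
`e ∘ c ∘ loc = d β` with `β` right-invariant under `loc⁻¹ W`:
`β(d)_z = B(d)_z - (d a_{d⁻¹ z} - a_z)`, where `v a_z - a_z = B(v)_z - e c_z(1,1)` on `loc⁻¹ W`.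
-/

set_option autoImplicit false
set_option linter.unusedSectionVars false
set_option linter.unusedVariables false

noncomputable section

namespace Fermat.Agent.S55.Cap.H123

variable {Γ D Z A Ω : Type} [Group Γ] [Group D] [MulAction Γ Z] [AddCommGroup A]
  [DistribMulAction Γ A] [AddCommGroup Ω] [DistribMulAction D Ω]
  (loc : D →* Γ) (W : Subgroup Γ) (e : A →+ Ω)

/-- **inflation is injective in degree 2** (cochain form): upgrade of the trivialising cochain. -/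
theorem upgrade_cochain (V' : Subgroup D)
    (he : ∀ (d : D) (a : A), e (loc d • a) = d • e a)
    (hWZ : ∀ w ∈ W, ∀ z : Z, w • z = z)
    (c : Γ → Γ → Z → A)
    (hcoc : ∀ (g h j : Γ) (z : Z),
      g • c h j (g⁻¹ • z) - c (g * h) j z + c g (h * j) z - c g h z = 0)
    (hinv : ∀ (g h w w' : Γ) (z : Z), w ∈ W → w' ∈ W → c (g * w) (h * w') z = c g h z)
    (B : D → Z → Ω)
    (hB1 : ∀ (d d' : D) (z : Z),
      e (c (loc d) (loc d') z) = d • B d' ((loc d)⁻¹ • z) - B (d * d') z + B d z)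
    (hB2 : ∀ (d v : D) (z : Z), v ∈ V' → B (d * v) z = B d z)
    (H90 : ∀ θ : D → Ω,
      (∀ δ ∈ W.comap loc, ∀ δ' ∈ W.comap loc, θ (δ * δ') = θ δ + δ • θ δ') →
      (∀ δ ∈ W.comap loc, ∀ w ∈ V', θ (δ * w) = θ δ) →
      ∃ a : Ω, ∀ δ ∈ W.comap loc, θ δ = δ • a - a) :
    ∃ β : D → Z → Ω,
      (∀ (d d' : D) (z : Z),
        e (c (loc d) (loc d') z) = d • β d' ((loc d)⁻¹ • z) - β (d * d') z + β d z) ∧
      (∀ (d v : D) (z : Z), v ∈ W.comap loc → β (d * v) z = β d z) := by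
  classical
  have hWZ' : ∀ v ∈ W.comap loc, ∀ z : Z, (loc v)⁻¹ • z = z := by
    intro v hv z
    exact hWZ _ (W.inv_mem hv) z
  -- `c g 1 = g • c 1 1`
  have hc1 : ∀ (g : Γ) (z : Z), c g 1 z = g • c 1 1 (g⁻¹ • z) := by
    intro g z
    have h0 := hcoc g 1 1 z
    rw [mul_one, mul_one] at h0
    have key : c g 1 z - g • c 1 1 (g⁻¹ • z)
        = -(g • c 1 1 (g⁻¹ • z) - c g 1 z + c g 1 z - c g 1 z) := by abel
    exact sub_eq_zero.1 (by rw [key, h0, neg_zero])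
  have hcv : ∀ v ∈ W.comap loc, ∀ v' ∈ W.comap loc, ∀ z : Z,
      c (loc v) (loc v') z = c 1 1 z := by
    intro v hv v' hv' z
    have := hinv 1 1 (loc v) (loc v') z hv hv'
    rwa [one_mul, one_mul] at this
  have hcd : ∀ (d : D), ∀ v ∈ W.comap loc, ∀ z : Z,
      c (loc d) (loc v) z = c (loc d) 1 z := by
    intro d v hv z
    have := hinv (loc d) 1 1 (loc v) z W.one_mem hv
    rwa [mul_one, one_mul] at this
  -- `m z = e (c 1 1 z)` is fixed by `loc⁻¹ W`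
  have hm : ∀ v ∈ W.comap loc, ∀ z : Z, v • e (c 1 1 z) = e (c 1 1 z) := by
    intro v hv z
    have h1 : c (loc v) 1 z = c 1 1 z := by
      have := hinv 1 1 (loc v) 1 z hv W.one_mem
      rwa [one_mul, one_mul] at this
    have h2 := hc1 (loc v) z
    rw [h1, hWZ' v hv z] at h2
    rw [← he, ← h2]
  have hBv : ∀ v ∈ W.comap loc, ∀ v' ∈ W.comap loc, ∀ z : Z,
      B (v * v') z = v • B v' z + B v z - e (c 1 1 z) := by
    intro v hv v' hv' z
    have h1 := hB1 v v' z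
    rw [hcv v hv v' hv' z, hWZ' v hv z] at h1
    rw [h1]
    abel
  -- Hilbert 90
  have hθ : ∀ z : Z, ∃ a : Ω, ∀ δ ∈ W.comap loc, B δ z - e (c 1 1 z) = δ • a - a := by
    intro z
    refine H90 (fun δ => B δ z - e (c 1 1 z)) ?_ ?_
    · intro δ hδ δ' hδ'
      show B (δ * δ') z - e (c 1 1 z) = B δ z - e (c 1 1 z) + δ • (B δ' z - e (c 1 1 z))
      rw [hBv δ hδ δ' hδ' z, smul_sub, hm δ hδ z]
      abel
    · intro δ hδ w hw
      show B (δ * w) z - e (c 1 1 z) = B δ z - e (c 1 1 z)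
      rw [hB2 δ w z hw]
  choose a ha using hθ
  have hβ1 : ∀ (d d' : D) (z : Z),
      e (c (loc d) (loc d') z)
        = d • (B d' ((loc d)⁻¹ • z) - (d' • a ((loc d')⁻¹ • (loc d)⁻¹ • z) - a ((loc d)⁻¹ • z)))
          - (B (d * d') z - ((d * d') • a ((loc (d * d'))⁻¹ • z) - a z))
          + (B d z - (d • a ((loc d)⁻¹ • z) - a z)) := by
    intro d d' z
    have h1 : (loc (d * d'))⁻¹ • z = (loc d')⁻¹ • (loc d)⁻¹ • z := by
      rw [map_mul, mul_inv_rev, mul_smul]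
    rw [hB1 d d' z, h1, smul_sub, smul_sub, mul_smul]
    abel
  refine ⟨fun d z => B d z - (d • a ((loc d)⁻¹ • z) - a z), hβ1, ?_⟩
  intro d v z hv
  show B (d * v) z - ((d * v) • a ((loc (d * v))⁻¹ • z) - a z)
    = B d z - (d • a ((loc d)⁻¹ • z) - a z)
  have h1 := hβ1 d v z
  have h2 : B v ((loc d)⁻¹ • z) - (v • a ((loc v)⁻¹ • (loc d)⁻¹ • z) - a ((loc d)⁻¹ • z))
      = e (c 1 1 ((loc d)⁻¹ • z)) := by
    rw [hWZ' v hv, ← ha ((loc d)⁻¹ • z) v hv]
    abel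
  rw [hcd d v hv z, hc1 (loc d) z, he, h2] at h1
  have key : (B (d * v) z - ((d * v) • a ((loc (d * v))⁻¹ • z) - a z))
      - (B d z - (d • a ((loc d)⁻¹ • z) - a z))
      = d • e (c 1 1 ((loc d)⁻¹ • z))
        - (d • e (c 1 1 ((loc d)⁻¹ • z))
          - (B (d * v) z - ((d * v) • a ((loc (d * v))⁻¹ • z) - a z))
          + (B d z - (d • a ((loc d)⁻¹ • z) - a z))) := by
    abel
  exact sub_eq_zero.1 (by rw [key, ← h1, sub_self])

end Fermat.Agent.S55.Cap.H123
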